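import Mathlib
import Fermat.Agent.LT.T7.H57.FoldSpec5

/-!
# Row LT, tower T7, LEAF T7.14.6a-F.13 `RowInvC57` (helper553, registry row 2211)

OFF-MAIN, never land.  `rowInvC553 (h : T1.T1Out K) : H57.RowInvC57 K`, VERBATIM vs
`LT/T7/H57/FoldSpec5.lean` (sha256 8a9bba37, helper57@6a1f79c59).  UNCONDITIONAL (the hypotheses
`T1.T1Out K`, `TotCplx K`, `IsSupp S 𝔪` are not used).

Right invariance of `rowNorm (bottom row)`, `|det|` and `Ω` under the generators of `U(𝔪) K_∞`.

* `u` in the level group: `u_w = 1` at the infinite places; at a finite place `v` the matrices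
  `u_v`, `u_v⁻¹` have entries of norm `≤ 1` (`idealClosure 𝔪 v` lies in the closed unit ball), so
  `max(|c|, |d|)_v` is unchanged (ultrametric inequality, both directions) and `|det u_v| = 1`.
  `Ω`: for `v ∣ 𝔪` the set `I = idealClosure 𝔪 v` is closed, stable under `+`, `-`, `·` and lies in
  the open unit ball; if `c = t d` then `(c, d) u_v = d (a, 1 + s)` with `a, s ∈ I`, and
  `a (1 + s)⁻¹ = ∑ a (-s)ⁿ ∈ I` (geometric series, `I` is closed).
* `k` an archimedean compact at `w`: only the factor at `w` changes; `|c|² + |d|²` is invariant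
  under a unitary matrix and `|det k_w| = 1`.
-/

set_option autoImplicit false

open AutomorphicForm IsDedekindDomain NumberField Filter Topology MeasureTheory
open scoped ComplexConjugate ENNReal

noncomputable section

namespace Fermat.Agent.LT.T7.H553

open Fermat.Agent.LT.H556 Fermat.Agent.LT.H556.A0 Fermat.Agent.LT.T7 Fermat.Agent.LT.T7.Rigid
open Fermat.Agent.LT.T7.H57

variable {K : Type} [Field K] [NumberField K]

/-! ## 1. The closure of an ideal at a finite place -/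

section IdealClosure

variable (𝔪 : Ideal (𝓞 K)) (v : HeightOneSpectrum (𝓞 K))

theorem zero_mem_idealClosure553 : (0 : v.adicCompletion K) ∈ idealClosure 𝔪 v :=
  subset_closure ⟨0, 𝔪.zero_mem, by simp⟩

variable {𝔪 v}

theorem add_mem_idealClosure553 {x y : v.adicCompletion K} (hx : x ∈ idealClosure 𝔪 v)
    (hy : y ∈ idealClosure 𝔪 v) : x + y ∈ idealClosure 𝔪 v := by
  unfold idealClosure at hx hy ⊢
  refine map_mem_closure₂ (f := fun a b => a + b) continuous_add hx hy ?_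
  rintro _ ⟨a, ha, rfl⟩ _ ⟨b, hb, rfl⟩
  exact ⟨a + b, 𝔪.add_mem ha hb, by simp⟩

theorem neg_mem_idealClosure553 {x : v.adicCompletion K} (hx : x ∈ idealClosure 𝔪 v) :
    -x ∈ idealClosure 𝔪 v := by
  unfold idealClosure at hx ⊢
  refine map_mem_closure (f := fun a => -a) continuous_neg hx ?_
  rintro _ ⟨a, ha, rfl⟩
  exact ⟨-a, 𝔪.neg_mem ha, by simp⟩

theorem mul_mem_idealClosure553 {x y : v.adicCompletion K} (hx : x ∈ idealClosure 𝔪 v)
    (hy : y ∈ idealClosure 𝔪 v) : x * y ∈ idealClosure 𝔪 v := by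
  unfold idealClosure at hx hy ⊢
  refine map_mem_closure₂ (f := fun a b => a * b) continuous_mul hx hy ?_
  rintro _ ⟨a, ha, rfl⟩ _ ⟨b, hb, rfl⟩
  exact ⟨a * b, 𝔪.mul_mem_left a hb, by simp⟩

theorem norm_le_one_of_mem_idealClosure553 {x : v.adicCompletion K}
    (hx : x ∈ idealClosure 𝔪 v) : ‖x‖ ≤ 1 := by
  have hcl : IsClosed {y : v.adicCompletion K | ‖y‖ ≤ 1} :=
    isClosed_le continuous_norm continuous_const
  have hsub : idealClosure 𝔪 v ⊆ {y : v.adicCompletion K | ‖y‖ ≤ 1} := by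
    refine closure_minimal ?_ hcl
    rintro _ ⟨a, -, rfl⟩
    exact NumberField.FinitePlace.norm_le_one K v a
  exact hsub hx

theorem norm_lt_one_of_mem_idealClosure553 (hv : v.asIdeal ∣ 𝔪) {x : v.adicCompletion K}
    (hx : x ∈ idealClosure 𝔪 v) : ‖x‖ < 1 := by
  have hcl : IsClosed {y : v.adicCompletion K | ‖y‖ < 1} := by
    have h := IsUltrametricDist.isClosed_ball (0 : v.adicCompletion K) 1
    have he : {y : v.adicCompletion K | ‖y‖ < 1} = Metric.ball (0 : v.adicCompletion K) 1 := by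
      ext y
      simp [Metric.mem_ball, dist_zero_right]
    rw [he]
    exact h
  have hsub : idealClosure 𝔪 v ⊆ {y : v.adicCompletion K | ‖y‖ < 1} := by
    refine closure_minimal ?_ hcl
    rintro _ ⟨a, ha, rfl⟩
    exact (NumberField.FinitePlace.norm_lt_one_iff_mem K v a).2 (Ideal.le_of_dvd hv ha)
  exact hsub hx

theorem mul_pow_neg_mem_idealClosure553 {a s : v.adicCompletion K}
    (ha : a ∈ idealClosure 𝔪 v) (hs : s ∈ idealClosure 𝔪 v) (n : ℕ) :
    a * (-s) ^ n ∈ idealClosure 𝔪 v := by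
  induction n with
  | zero => simpa using ha
  | succ n ih =>
    have h : a * (-s) ^ (n + 1) = (a * (-s) ^ n) * (-s) := by ring
    rw [h]
    exact mul_mem_idealClosure553 ih (neg_mem_idealClosure553 hs)

/-- The geometric series: `a (1 + s)⁻¹ ∈ I` for `a, s ∈ I`, `|s| < 1`. -/
theorem mul_inv_one_add_mem_idealClosure553 {a s : v.adicCompletion K}
    (ha : a ∈ idealClosure 𝔪 v) (hs : s ∈ idealClosure 𝔪 v) (hs1 : ‖s‖ < 1) :
    a * (1 + s)⁻¹ ∈ idealClosure 𝔪 v := by
  have hgeo : HasSum (fun n : ℕ => (-s) ^ n) (1 - (-s))⁻¹ :=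
    hasSum_geometric_of_norm_lt_one (by rwa [norm_neg])
  have h2 : HasSum (fun n : ℕ => a * (-s) ^ n) (a * (1 + s)⁻¹) := by
    have h3 := hgeo.mul_left a
    rwa [sub_neg_eq_add] at h3
  have hmem : ∀ N : ℕ, (∑ n ∈ Finset.range N, a * (-s) ^ n) ∈ idealClosure 𝔪 v := by
    intro N
    induction N with
    | zero =>
      rw [Finset.sum_range_zero]
      exact zero_mem_idealClosure553 𝔪 v
    | succ N ih =>
      rw [Finset.sum_range_succ]
      exact add_mem_idealClosure553 ih (mul_pow_neg_mem_idealClosure553 ha hs N)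
  have hcl : IsClosed (idealClosure 𝔪 v) := isClosed_closure
  exact hcl.mem_of_tendsto h2.tendsto_sum_nat (Eventually.of_forall hmem)

end IdealClosure

/-! ## 2. Local linear algebra -/

section Local

/-- Ultrametric: a matrix with entries of norm `≤ 1` does not increase `max(|c|, |d|)`. -/
theorem max_row_le553 {F : Type*} [NormedField F] [IsUltrametricDist F]
    (U : Matrix (Fin 2) (Fin 2) F) (hU : ∀ i j, ‖U i j‖ ≤ 1) (c d : F) :
    max ‖c * U 0 0 + d * U 1 0‖ ‖c * U 0 1 + d * U 1 1‖ ≤ max ‖c‖ ‖d‖ := by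
  have key : ∀ j : Fin 2, ‖c * U 0 j + d * U 1 j‖ ≤ max ‖c‖ ‖d‖ := by
    intro j
    refine (IsUltrametricDist.norm_add_le_max _ _).trans (max_le_max ?_ ?_)
    · rw [norm_mul]
      exact mul_le_of_le_one_right (norm_nonneg _) (hU 0 j)
    · rw [norm_mul]
      exact mul_le_of_le_one_right (norm_nonneg _) (hU 1 j)
  exact max_le (key 0) (key 1)

/-- Ultrametric: a matrix of `GL₂` of the unit ball preserves `max(|c|, |d|)`. -/
theorem max_row_eq553 {F : Type*} [NormedField F] [IsUltrametricDist F]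
    (U U' : Matrix (Fin 2) (Fin 2) F) (hU : ∀ i j, ‖U i j‖ ≤ 1) (hU' : ∀ i j, ‖U' i j‖ ≤ 1)
    (hUU' : U * U' = 1) (c d : F) :
    max ‖c * U 0 0 + d * U 1 0‖ ‖c * U 0 1 + d * U 1 1‖ = max ‖c‖ ‖d‖ := by
  refine le_antisymm (max_row_le553 U hU c d) ?_
  have h00 : U 0 0 * U' 0 0 + U 0 1 * U' 1 0 = 1 := by
    have := congrFun (congrFun hUU' 0) 0
    simpa [Matrix.mul_apply, Fin.sum_univ_two] using this
  have h01 : U 0 0 * U' 0 1 + U 0 1 * U' 1 1 = 0 := by
    have := congrFun (congrFun hUU' 0) 1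
    simpa [Matrix.mul_apply, Fin.sum_univ_two] using this
  have h10 : U 1 0 * U' 0 0 + U 1 1 * U' 1 0 = 0 := by
    have := congrFun (congrFun hUU' 1) 0
    simpa [Matrix.mul_apply, Fin.sum_univ_two] using this
  have h11 : U 1 0 * U' 0 1 + U 1 1 * U' 1 1 = 1 := by
    have := congrFun (congrFun hUU' 1) 1
    simpa [Matrix.mul_apply, Fin.sum_univ_two] using this
  have hc : c = (c * U 0 0 + d * U 1 0) * U' 0 0 + (c * U 0 1 + d * U 1 1) * U' 1 0 := by
    linear_combination (-c) * h00 + (-d) * h10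
  have hd : d = (c * U 0 0 + d * U 1 0) * U' 0 1 + (c * U 0 1 + d * U 1 1) * U' 1 1 := by
    linear_combination (-c) * h01 + (-d) * h11
  have h := max_row_le553 U' hU' (c * U 0 0 + d * U 1 0) (c * U 0 1 + d * U 1 1)
  rw [← hc, ← hd] at h
  exact h

/-- Ultrametric: the determinant of a matrix of `GL₂` of the unit ball has norm `1`. -/
theorem norm_det_eq_one553 {F : Type*} [NormedField F] [IsUltrametricDist F]
    (U U' : Matrix (Fin 2) (Fin 2) F) (hU : ∀ i j, ‖U i j‖ ≤ 1) (hU' : ∀ i j, ‖U' i j‖ ≤ 1)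
    (hUU' : U * U' = 1) : ‖U.det‖ = 1 := by
  have hdet : ∀ V : Matrix (Fin 2) (Fin 2) F, (∀ i j, ‖V i j‖ ≤ 1) → ‖V.det‖ ≤ 1 := by
    intro V hV
    rw [Matrix.det_fin_two, sub_eq_add_neg]
    refine (IsUltrametricDist.norm_add_le_max _ _).trans (max_le ?_ ?_)
    · rw [norm_mul]
      exact mul_le_one₀ (hV 0 0) (norm_nonneg _) (hV 1 1)
    · rw [norm_neg, norm_mul]
      exact mul_le_one₀ (hV 0 1) (norm_nonneg _) (hV 1 0)
  have h1 : ‖U.det‖ * ‖U'.det‖ = 1 := by
    rw [← norm_mul, ← Matrix.det_mul, hUU', Matrix.det_one, norm_one]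
  have ha := hdet U hU
  have hb := hdet U' hU'
  have hna := norm_nonneg U.det
  have hnb := norm_nonneg U'.det
  nlinarith

/-- A unitary matrix preserves `|x|² + |y|²` (row vectors). -/
theorem unitary_row_norm553 (M : Matrix (Fin 2) (Fin 2) ℂ) (hM : M * M.conjTranspose = 1)
    (x y : ℂ) :
    ‖x * M 0 0 + y * M 1 0‖ ^ 2 + ‖x * M 0 1 + y * M 1 1‖ ^ 2 = ‖x‖ ^ 2 + ‖y‖ ^ 2 := by
  have h00 : M 0 0 * conj (M 0 0) + M 0 1 * conj (M 0 1) = 1 := by
    have := congrFun (congrFun hM 0) 0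
    simpa [Matrix.mul_apply, Fin.sum_univ_two, Matrix.conjTranspose_apply] using this
  have h01 : M 0 0 * conj (M 1 0) + M 0 1 * conj (M 1 1) = 0 := by
    have := congrFun (congrFun hM 0) 1
    simpa [Matrix.mul_apply, Fin.sum_univ_two, Matrix.conjTranspose_apply] using this
  have h10 : M 1 0 * conj (M 0 0) + M 1 1 * conj (M 0 1) = 0 := by
    have := congrFun (congrFun hM 1) 0
    simpa [Matrix.mul_apply, Fin.sum_univ_two, Matrix.conjTranspose_apply] using this
  have h11 : M 1 0 * conj (M 1 0) + M 1 1 * conj (M 1 1) = 1 := by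
    have := congrFun (congrFun hM 1) 1
    simpa [Matrix.mul_apply, Fin.sum_univ_two, Matrix.conjTranspose_apply] using this
  have hsq : ∀ z : ℂ, z * conj z = ((‖z‖ ^ 2 : ℝ) : ℂ) := by
    intro z
    rw [Complex.mul_conj, Complex.normSq_eq_norm_sq]
  have key : (x * M 0 0 + y * M 1 0) * conj (x * M 0 0 + y * M 1 0)
      + (x * M 0 1 + y * M 1 1) * conj (x * M 0 1 + y * M 1 1) = x * conj x + y * conj y := by
    simp only [map_add, map_mul]
    linear_combination (x * conj x) * h00 + (x * conj y) * h01 + (y * conj x) * h10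
      + (y * conj y) * h11
  rw [hsq, hsq, hsq, hsq] at key
  exact_mod_cast key

/-- The determinant of a unitary matrix has norm `1`. -/
theorem unitary_norm_det553 (M : Matrix (Fin 2) (Fin 2) ℂ) (hM : M * M.conjTranspose = 1) :
    ‖M.det‖ = 1 := by
  have h1 : M.det * conj M.det = 1 := by
    have := congrArg Matrix.det hM
    rw [Matrix.det_mul, Matrix.det_conjTranspose, Matrix.det_one] at this
    exact this
  have h2 : ((‖M.det‖ ^ 2 : ℝ) : ℂ) = 1 := by
    rw [← h1, Complex.mul_conj, Complex.normSq_eq_norm_sq]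
  have h3 : ‖M.det‖ ^ 2 = 1 := by exact_mod_cast h2
  have h4 := norm_nonneg M.det
  nlinarith

end Local

/-! ## 3. Components of products -/

section Components

theorem coe_mul553 (g h : G K) :
    ((g * h : G K) : Matrix (Fin 2) (Fin 2) (Adl K))
      = (g : Matrix (Fin 2) (Fin 2) (Adl K)) * (h : Matrix (Fin 2) (Fin 2) (Adl K)) :=
  Units.val_mul g h

theorem botRow_mul553 (g h : G K) (j : Fin 2) :
    botRow57 K (g * h) j
      = botRow57 K g 0 * (h : Matrix (Fin 2) (Fin 2) (Adl K)) 0 j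
        + botRow57 K g 1 * (h : Matrix (Fin 2) (Fin 2) (Adl K)) 1 j := by
  show ((g * h : G K) : Matrix (Fin 2) (Fin 2) (Adl K)) 1 j
    = (g : Matrix (Fin 2) (Fin 2) (Adl K)) 1 0 * (h : Matrix (Fin 2) (Fin 2) (Adl K)) 0 j
      + (g : Matrix (Fin 2) (Fin 2) (Adl K)) 1 1 * (h : Matrix (Fin 2) (Fin 2) (Adl K)) 1 j
  rw [coe_mul553, Matrix.mul_apply, Fin.sum_univ_two]

theorem botRow_mul_fin553 (g h : G K) (v : HeightOneSpectrum (𝓞 K)) (j : Fin 2) :
    (botRow57 K (g * h) j).2 v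
      = (botRow57 K g 0).2 v * finComp v h 0 j + (botRow57 K g 1).2 v * finComp v h 1 j := by
  rw [botRow_mul553]
  rfl

theorem botRow_mul_inf553 (g h : G K) (w : InfinitePlace K) (j : Fin 2) :
    (botRow57 K (g * h) j).1 w
      = (botRow57 K g 0).1 w * ((h : Matrix (Fin 2) (Fin 2) (Adl K)) 0 j).1 w
        + (botRow57 K g 1).1 w * ((h : Matrix (Fin 2) (Fin 2) (Adl K)) 1 j).1 w := by
  rw [botRow_mul553]
  rfl

/-- The component at the infinite place `w`, in the completion. -/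
def infR553 (w : InfinitePlace K) : Adl K →+* w.Completion :=
  (Pi.evalRingHom (fun v : InfinitePlace K => v.Completion) w).comp
    (RingHom.fst (InfiniteAdeleRing K) (FiniteAdeleRing (𝓞 K) K))

theorem infR_apply553 (w : InfinitePlace K) (x : Adl K) : infR553 w x = x.1 w := rfl

theorem trivAtInf_iff553 (w : InfinitePlace K) (g : G K) :
    TrivAtInf w g ↔ (g : Matrix (Fin 2) (Fin 2) (Adl K)).map (infR553 w) = 1 := by
  constructor
  · intro h
    exact Matrix.ext fun i j => h i j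
  · intro h i j
    exact congrFun (congrFun h i) j

theorem map_infR_mul553 (w : InfinitePlace K) (g h : G K) :
    ((g * h : G K) : Matrix (Fin 2) (Fin 2) (Adl K)).map (infR553 w)
      = (g : Matrix (Fin 2) (Fin 2) (Adl K)).map (infR553 w)
        * (h : Matrix (Fin 2) (Fin 2) (Adl K)).map (infR553 w) := by
  rw [coe_mul553, Matrix.map_mul]

theorem finComp_mul553 (v : HeightOneSpectrum (𝓞 K)) (g h : G K) :
    finComp v (g * h) = finComp v g * finComp v h := by
  rw [Fermat.Agent.LT.T5.finComp_eq_map, Fermat.Agent.LT.T5.finComp_eq_map,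
    Fermat.Agent.LT.T5.finComp_eq_map, coe_mul553, Matrix.map_mul]

theorem coe_one553 : ((1 : G K) : Matrix (Fin 2) (Fin 2) (Adl K)) = 1 := rfl

theorem finComp_one553 (v : HeightOneSpectrum (𝓞 K)) : finComp v (1 : G K) = 1 := by
  rw [Fermat.Agent.LT.T5.finComp_eq_map, coe_one553]
  exact Matrix.map_one (Fermat.Agent.LT.T5.finHom v) (map_zero _) (map_one _)

theorem finComp_mul_inv553 (v : HeightOneSpectrum (𝓞 K)) (u : G K) :
    finComp v u * finComp v u⁻¹ = 1 := by
  rw [← finComp_mul553, mul_inv_cancel, finComp_one553]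

theorem det_fin553 (v : HeightOneSpectrum (𝓞 K)) (g : G K) :
    (Matrix.det (g : Matrix (Fin 2) (Fin 2) (Adl K))).2 v = (finComp v g).det := by
  rw [Fermat.Agent.LT.T5.finComp_eq_map]
  exact RingHom.map_det (Fermat.Agent.LT.T5.finHom v) (g : Matrix (Fin 2) (Fin 2) (Adl K))

theorem det_infHom553 (w : InfinitePlace K) (g : G K) :
    Fermat.Agent.LT.T5.infHom w (Matrix.det (g : Matrix (Fin 2) (Fin 2) (Adl K)))
      = (infComp w g).det := by
  rw [Fermat.Agent.LT.T5.infComp_eq_map]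
  exact RingHom.map_det (Fermat.Agent.LT.T5.infHom w) (g : Matrix (Fin 2) (Fin 2) (Adl K))

theorem det_infR553 (w : InfinitePlace K) (g : G K) :
    (Matrix.det (g : Matrix (Fin 2) (Fin 2) (Adl K))).1 w
      = ((g : Matrix (Fin 2) (Fin 2) (Adl K)).map (infR553 w)).det :=
  RingHom.map_det (infR553 w) (g : Matrix (Fin 2) (Fin 2) (Adl K))

theorem norm_inf553 (w : InfinitePlace K) (x : Adl K) :
    ‖x.1 w‖ = ‖Fermat.Agent.LT.T5.infHom w x‖ :=
  ((AddMonoidHomClass.isometry_iff_norm _).1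
    (InfinitePlace.Completion.isometry_extensionEmbedding w) (x.1 w)).symm

theorem botRow_mul_inf_of_triv553 (g : G K) {h : G K} {w : InfinitePlace K}
    (hw : TrivAtInf w h) (j : Fin 2) :
    (botRow57 K (g * h) j).1 w = (botRow57 K g j).1 w := by
  rw [botRow_mul_inf553, hw 0 j, hw 1 j]
  revert j
  rw [Fin.forall_fin_two]
  constructor <;> simp

theorem botRow_mul_fin_of_triv553 (g : G K) {h : G K} {v : HeightOneSpectrum (𝓞 K)}
    (hv : TrivAtFin v h) (j : Fin 2) :
    (botRow57 K (g * h) j).2 v = (botRow57 K g j).2 v := by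
  have hv' : finComp v h = 1 := hv
  rw [botRow_mul_fin553, hv']
  revert j
  rw [Fin.forall_fin_two]
  constructor <;> simp

theorem norm_det_inf_of_triv553 {h : G K} {w : InfinitePlace K} (hw : TrivAtInf w h) :
    ‖(Matrix.det (h : Matrix (Fin 2) (Fin 2) (Adl K))).1 w‖ = 1 := by
  rw [det_infR553, (trivAtInf_iff553 w h).1 hw, Matrix.det_one, norm_one]

theorem norm_det_fin_of_triv553 {h : G K} {v : HeightOneSpectrum (𝓞 K)} (hv : TrivAtFin v h) :
    ‖(Matrix.det (h : Matrix (Fin 2) (Fin 2) (Adl K))).2 v‖ = 1 := by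
  have hv' : finComp v h = 1 := hv
  rw [det_fin553, hv', Matrix.det_one, norm_one]

theorem adNorm_det_mul553 (g h : G K)
    (h1 : ∀ w : InfinitePlace K, ‖(Matrix.det (h : Matrix (Fin 2) (Fin 2) (Adl K))).1 w‖ = 1)
    (h2 : ∀ v : HeightOneSpectrum (𝓞 K),
      ‖(Matrix.det (h : Matrix (Fin 2) (Fin 2) (Adl K))).2 v‖ = 1) :
    Fermat.Agent.LT.T5.adNorm (Matrix.det ((g * h : G K) : Matrix (Fin 2) (Fin 2) (Adl K)))
      = Fermat.Agent.LT.T5.adNorm (Matrix.det (g : Matrix (Fin 2) (Fin 2) (Adl K))) := by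
  rw [coe_mul553, Matrix.det_mul]
  unfold Fermat.Agent.LT.T5.adNorm
  congr 1
  · refine Finset.prod_congr rfl fun w _ => ?_
    have e : ((Matrix.det (g : Matrix (Fin 2) (Fin 2) (Adl K))
        * Matrix.det (h : Matrix (Fin 2) (Fin 2) (Adl K))).1 w)
        = (Matrix.det (g : Matrix (Fin 2) (Fin 2) (Adl K))).1 w
          * (Matrix.det (h : Matrix (Fin 2) (Fin 2) (Adl K))).1 w := rfl
    rw [e, norm_mul, h1 w, mul_one]
  · refine finprod_congr fun v => ?_
    have e : ((Matrix.det (g : Matrix (Fin 2) (Fin 2) (Adl K))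
        * Matrix.det (h : Matrix (Fin 2) (Fin 2) (Adl K))).2 v)
        = (Matrix.det (g : Matrix (Fin 2) (Fin 2) (Adl K))).2 v
          * (Matrix.det (h : Matrix (Fin 2) (Fin 2) (Adl K))).2 v := rfl
    rw [e, norm_mul, h2 v, mul_one]

theorem rowNorm_congr553 (r r' : Fin 2 → Adl K)
    (h1 : ∀ w : InfinitePlace K,
      ‖(r 0).1 w‖ ^ 2 + ‖(r 1).1 w‖ ^ 2 = ‖(r' 0).1 w‖ ^ 2 + ‖(r' 1).1 w‖ ^ 2)
    (h2 : ∀ v : HeightOneSpectrum (𝓞 K),
      max ‖(r 0).2 v‖ ‖(r 1).2 v‖ = max ‖(r' 0).2 v‖ ‖(r' 1).2 v‖) :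
    rowNorm r = rowNorm r' := by
  unfold rowNorm
  congr 1
  · exact Finset.prod_congr rfl fun w _ => by rw [h1 w]
  · exact finprod_congr h2

end Components

/-! ## 4. The level group -/

section Level

variable {𝔪 : Ideal (𝓞 K)}

theorem norm_entry_le_one553 {v : HeightOneSpectrum (𝓞 K)}
    (U : Matrix (Fin 2) (Fin 2) (v.adicCompletion K))
    (hU : ∀ i j, (U - 1) i j ∈ idealClosure 𝔪 v) (i j : Fin 2) : ‖U i j‖ ≤ 1 := by
  have h := norm_le_one_of_mem_idealClosure553 (hU i j)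
  have e : U i j = (U - 1) i j + (1 : Matrix (Fin 2) (Fin 2) (v.adicCompletion K)) i j := by
    simp
  rw [e]
  refine (IsUltrametricDist.norm_add_le_max _ _).trans (max_le h ?_)
  by_cases hij : i = j
  · subst hij
    simp
  · simp [Matrix.one_apply_ne hij]

theorem inLevelGroup_inv553 {u : G K} (hu : InLevelGroup 𝔪 u) : InLevelGroup 𝔪 u⁻¹ := by
  refine ⟨fun w => ?_, fun v i j => ⟨(hu.2 v i j).2, by rw [inv_inv]; exact (hu.2 v i j).1⟩⟩
  rw [trivAtInf_iff553]
  have h1 := (trivAtInf_iff553 w u).1 (hu.1 w)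
  have h2 := map_infR_mul553 w u u⁻¹
  rw [mul_inv_cancel, h1, one_mul, coe_one553] at h2
  rw [← h2]
  exact Matrix.map_one (infR553 w) (map_zero _) (map_one _)

theorem rowNorm_mul_level553 {u : G K} (hu : InLevelGroup 𝔪 u) (g : G K) :
    rowNorm (botRow57 K (g * u)) = rowNorm (botRow57 K g) := by
  refine rowNorm_congr553 _ _ (fun w => ?_) (fun v => ?_)
  · rw [botRow_mul_inf_of_triv553 g (hu.1 w) 0, botRow_mul_inf_of_triv553 g (hu.1 w) 1]
  · rw [botRow_mul_fin553, botRow_mul_fin553]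
    exact max_row_eq553 (finComp v u) (finComp v u⁻¹)
      (norm_entry_le_one553 _ fun i j => (hu.2 v i j).1)
      (norm_entry_le_one553 _ fun i j => (hu.2 v i j).2)
      (finComp_mul_inv553 v u) _ _

theorem adNorm_mul_level553 {u : G K} (hu : InLevelGroup 𝔪 u) (g : G K) :
    Fermat.Agent.LT.T5.adNorm (Matrix.det ((g * u : G K) : Matrix (Fin 2) (Fin 2) (Adl K)))
      = Fermat.Agent.LT.T5.adNorm (Matrix.det (g : Matrix (Fin 2) (Fin 2) (Adl K))) := by
  refine adNorm_det_mul553 g u (fun w => norm_det_inf_of_triv553 (hu.1 w)) (fun v => ?_)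
  rw [det_fin553]
  exact norm_det_eq_one553 (finComp v u) (finComp v u⁻¹)
    (norm_entry_le_one553 _ fun i j => (hu.2 v i j).1)
    (norm_entry_le_one553 _ fun i j => (hu.2 v i j).2)
    (finComp_mul_inv553 v u)

theorem om_mul_level553 {u : G K} (hu : InLevelGroup 𝔪 u) {g : G K} (hg : g ∈ Om57 K 𝔪) :
    g * u ∈ Om57 K 𝔪 := by
  intro v hv
  obtain ⟨t, ht, hct⟩ := hg v hv
  have hU : ∀ i j, (finComp v u - 1) i j ∈ idealClosure 𝔪 v := fun i j => (hu.2 v i j).1
  have h00 : finComp v u 0 0 - 1 ∈ idealClosure 𝔪 v := by simpa using hU 0 0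
  have h01 : finComp v u 0 1 ∈ idealClosure 𝔪 v := by simpa using hU 0 1
  have h10 : finComp v u 1 0 ∈ idealClosure 𝔪 v := by simpa using hU 1 0
  have h11 : finComp v u 1 1 - 1 ∈ idealClosure 𝔪 v := by simpa using hU 1 1
  have ha : t * finComp v u 0 0 + finComp v u 1 0 ∈ idealClosure 𝔪 v := by
    have e : t * finComp v u 0 0 + finComp v u 1 0
        = (t + t * (finComp v u 0 0 - 1)) + finComp v u 1 0 := by ring
    rw [e]
    exact add_mem_idealClosure553
      (add_mem_idealClosure553 ht (mul_mem_idealClosure553 ht h00)) h10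
  have hs : t * finComp v u 0 1 + (finComp v u 1 1 - 1) ∈ idealClosure 𝔪 v :=
    add_mem_idealClosure553 (mul_mem_idealClosure553 ht h01) h11
  have hs1 := norm_lt_one_of_mem_idealClosure553 hv hs
  have hne : (1 + (t * finComp v u 0 1 + (finComp v u 1 1 - 1))) ≠ 0 := by
    intro h0
    have e : t * finComp v u 0 1 + (finComp v u 1 1 - 1) = -1 := by linear_combination h0
    rw [e, norm_neg, norm_one] at hs1
    exact lt_irrefl _ hs1
  refine ⟨(t * finComp v u 0 0 + finComp v u 1 0)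
      * (1 + (t * finComp v u 0 1 + (finComp v u 1 1 - 1)))⁻¹,
    mul_inv_one_add_mem_idealClosure553 ha hs hs1, ?_⟩
  rw [botRow_mul_fin553, botRow_mul_fin553, hct]
  have e1 : t * (botRow57 K g 1).2 v * finComp v u 0 1 + (botRow57 K g 1).2 v * finComp v u 1 1
      = (botRow57 K g 1).2 v * (1 + (t * finComp v u 0 1 + (finComp v u 1 1 - 1))) := by ring
  rw [e1]
  field_simp

theorem om_mul_level_iff553 {u : G K} (hu : InLevelGroup 𝔪 u) (g : G K) :
    g * u ∈ Om57 K 𝔪 ↔ g ∈ Om57 K 𝔪 := by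
  constructor
  · intro h
    have := om_mul_level553 (inLevelGroup_inv553 hu) h
    rwa [mul_assoc, mul_inv_cancel, mul_one] at this
  · exact om_mul_level553 hu

end Level

/-! ## 5. The archimedean compacts -/

section Arch

variable {𝔪 : Ideal (𝓞 K)}

theorem rowNorm_mul_arch553 {w : InfinitePlace K} {k : G K} (hk : IsArchCompact w k) (g : G K) :
    rowNorm (botRow57 K (g * k)) = rowNorm (botRow57 K g) := by
  refine rowNorm_congr553 _ _ (fun w' => ?_) (fun v => ?_)
  · by_cases hw : w' = w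
    · subst hw
      rw [norm_inf553, norm_inf553 w' (botRow57 K (g * k) 1), norm_inf553 w' (botRow57 K g 0),
        norm_inf553 w' (botRow57 K g 1), botRow_mul553, botRow_mul553]
      simp only [map_add, map_mul]
      exact unitary_row_norm553 (infComp w' k) hk.2.1 _ _
    · rw [botRow_mul_inf_of_triv553 g (hk.1.1 w' hw) 0,
        botRow_mul_inf_of_triv553 g (hk.1.1 w' hw) 1]
  · rw [botRow_mul_fin_of_triv553 g (hk.1.2 v) 0, botRow_mul_fin_of_triv553 g (hk.1.2 v) 1]

theorem adNorm_mul_arch553 {w : InfinitePlace K} {k : G K} (hk : IsArchCompact w k) (g : G K) :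
    Fermat.Agent.LT.T5.adNorm (Matrix.det ((g * k : G K) : Matrix (Fin 2) (Fin 2) (Adl K)))
      = Fermat.Agent.LT.T5.adNorm (Matrix.det (g : Matrix (Fin 2) (Fin 2) (Adl K))) := by
  refine adNorm_det_mul553 g k (fun w' => ?_) (fun v => norm_det_fin_of_triv553 (hk.1.2 v))
  by_cases hw : w' = w
  · subst hw
    rw [norm_inf553, det_infHom553]
    exact unitary_norm_det553 _ hk.2.1
  · exact norm_det_inf_of_triv553 (hk.1.1 w' hw)

theorem om_mul_arch_iff553 {w : InfinitePlace K} {k : G K} (hk : IsArchCompact w k) (g : G K) :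
    g * k ∈ Om57 K 𝔪 ↔ g ∈ Om57 K 𝔪 := by
  constructor
  · intro h v hv
    obtain ⟨t, ht, e⟩ := h v hv
    rw [botRow_mul_fin_of_triv553 g (hk.1.2 v) 0, botRow_mul_fin_of_triv553 g (hk.1.2 v) 1] at e
    exact ⟨t, ht, e⟩
  · intro h v hv
    obtain ⟨t, ht, e⟩ := h v hv
    refine ⟨t, ht, ?_⟩
    rw [botRow_mul_fin_of_triv553 g (hk.1.2 v) 0, botRow_mul_fin_of_triv553 g (hk.1.2 v) 1]
    exact e

end Arch

/-! ## 6. The leaf -/

/-- **LEAF T7.14.6a-F.13 ROW-INV** (`H57.RowInvC57`, VERBATIM). -/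
theorem rowInvC553 (K : Type) [Field K] [NumberField K] (_h : Fermat.Agent.LT.T1.T1Out K) :
    Fermat.Agent.LT.T7.H57.RowInvC57 K := by
  intro _ S 𝔪 _
  exact ⟨fun u hu g => ⟨rowNorm_mul_level553 hu g, adNorm_mul_level553 hu g,
      om_mul_level_iff553 hu g⟩,
    fun w k hk g => ⟨rowNorm_mul_arch553 hk g, adNorm_mul_arch553 hk g,
      om_mul_arch_iff553 hk g⟩⟩

end Fermat.Agent.LT.T7.H553
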