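import Mathlib
import Fermat.Agent.LT.T7.H314.UpFactBSpec

/-!
# Row LT, tower T7, node C2.7.13.1b `UpFactC305b`, leaf UF.b1 `SplitEnumC314` (helper553)

OFF-MAIN, never land.  Registry row 2808.  On `LT/T7/H314/UpFactBSpec.lean` (helper314@a958dda79,
sha256 744d56d4, byte-identical copy with its import closure).  No hole, nothing assumed.

    splitEnumC_of553 : H305.SigmaLocC305 K' → H314.SplitEnumC314 K K'      (conclusion VERBATIM)

`SigmaLocC305 K'` is a CLOSED asset leaf of helper305's first cut.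

## Proof

`g ∈ Gal(K'/K)` = the element defined by `σ = D.s.σ` (`σ` fixes `K`: `IsCompData.base`,
`IsCyclicOfDegree.fixed`); `map (mapRingEquiv σ) I = g • I` (pointwise action; these small facts
are those of helper388 `Enum.lean`, restated here under own names).
* `w_a = g^{-a} • w_0` (`rel`, induction).
* `inj`: `w_a = w_b`, `a ≤ b` gives `w_{b-a} = w_0`, so `b - a = 0` (`ne`).
* `exh`: the Galois group acts transitively on the primes over `v`
  (`Ideal.exists_smul_eq_of_isGaloisGroup`), it has prime order `l` and `g ≠ 1`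
  (`IsCyclicOfDegree.faithful`), so every element is `g^{-a}`, `a < l` (`g^l = 1`).
* `iot`: `IsAdeleBase305.fin` gives `i'` with `(ι x)_{w_a} = i'(x_v)`; `i'` and `i_a` are
  continuous (they scale the valuation) and agree on the dense subfield `K`.
* `sig`: `w_a = σ(w_{a+1 mod l})` (`g^l = 1`), `SigmaLocC305` gives the continuous isomorphism
  `s_w : K'_{w_{a+1}} ≃ K'_{w_a}` with `(σ_𝔸 x)_{w_a} = s_w(x_{w_{a+1}})`; `s_w ∘ i_{a+1}` and
  `i_a` are continuous and agree on `K`.
-/

set_option autoImplicit false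
set_option linter.unusedSectionVars false
set_option linter.unusedVariables false
set_option linter.style.haveILetI false

open AutomorphicForm IsDedekindDomain NumberField MeasureTheory
open scoped Pointwise

noncomputable section

namespace Fermat.Agent.LT.T7.H553

open Fermat.Agent.LT.H556 Fermat.Agent.LT.H556.A0 Fermat.Agent.LT.T7 Fermat.Agent.LT.T7.H305
open Fermat.Agent.LT.T7.H340
open Fermat.Agent.LT

/-! ## 1. The Galois action on the places -/

section Gal

variable {K K' : Type} [Field K] [NumberField K] [Field K'] [NumberField K'] [Algebra K K']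

theorem coe_smulSE553 (g : Gal(K'/K)) (x : 𝓞 K') : ((g • x : 𝓞 K') : K') = g (x : K') := rfl

/-- `map e I = g • I` when the ring automorphism `e` of `𝓞 K'` is the action of `g`. -/
theorem map_eq_smulSE553 (e : 𝓞 K' ≃+* 𝓞 K') (g : Gal(K'/K)) (he : ∀ x : 𝓞 K', e x = g • x)
    (I : Ideal (𝓞 K')) : Ideal.map e I = g • I := by
  ext y
  rw [Ideal.mem_pointwise_smul_iff_inv_smul_mem]
  constructor
  · intro hy
    obtain ⟨x, hx, rfl⟩ := (Ideal.mem_map_of_equiv e y).1 hy
    rw [he, inv_smul_smul]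
    exact hx
  · intro hy
    refine (Ideal.mem_map_of_equiv e y).2 ⟨g⁻¹ • y, hy, ?_⟩
    rw [he, smul_inv_smul]

/-- Places over `v` as primes over `v`. -/
theorem liesOver_of_placeOverSE553 {v : HeightOneSpectrum (𝓞 K)}
    {w : HeightOneSpectrum (𝓞 K')} (h : PlaceOver K K' v w) :
    w.asIdeal.LiesOver v.asIdeal := by
  rw [Ideal.liesOver_iff]
  ext x
  exact h x (algebraMap (𝓞 K) (𝓞 K') x) rfl

theorem mapRingEquiv_eq_smulSE553 (σ : K' ≃+* K') (g : Gal(K'/K)) (hg : ∀ x : K', g x = σ x)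
    (x : 𝓞 K') : RingOfIntegers.mapRingEquiv σ x = g • x := by
  apply RingOfIntegers.ext
  rw [coe_smulSE553, hg]
  rfl

/-- `w_a = g^{-a} • w_0`. -/
theorem enum_eq_smul553 (s : T5.AdelicAut K') (g : Gal(K'/K)) (hg : ∀ x : K', g x = s.σ x)
    (w : ℕ → HeightOneSpectrum (𝓞 K'))
    (hrel : ∀ j : ℕ, T5.PlaceRel s (w (j + 1)) (w j)) (a : ℕ) :
    (w a).asIdeal = (g ^ a)⁻¹ • (w 0).asIdeal := by
  induction a with
  | zero => rw [pow_zero, inv_one, one_smul]
  | succ a ih =>
    have h : (w a).asIdeal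
        = Ideal.map (RingOfIntegers.mapRingEquiv s.σ) (w (a + 1)).asIdeal := hrel a
    rw [map_eq_smulSE553 _ g (mapRingEquiv_eq_smulSE553 s.σ g hg)] at h
    have h2 : (w (a + 1)).asIdeal = g⁻¹ • (w a).asIdeal := by
      rw [h, inv_smul_smul]
    rw [h2, ih, smul_smul, pow_succ, mul_inv_rev]

/-- The places are distinct. -/
theorem enum_inj553 (s : T5.AdelicAut K') (g : Gal(K'/K)) (hg : ∀ x : K', g x = s.σ x)
    (l : ℕ) (w : ℕ → HeightOneSpectrum (𝓞 K'))
    (hrel : ∀ j : ℕ, T5.PlaceRel s (w (j + 1)) (w j))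
    (hne : ∀ j : ℕ, 0 < j → j < l → w j ≠ w 0)
    (a b : ℕ) (hab : a ≤ b) (hb : b < l) (h : w a = w b) : a = b := by
  by_contra hcon
  have hlt : a < b := lt_of_le_of_ne hab hcon
  have hc0 : 0 < b - a := Nat.sub_pos_of_lt hlt
  have hcl : b - a < l := lt_of_le_of_lt (Nat.sub_le b a) hb
  apply hne (b - a) hc0 hcl
  apply HeightOneSpectrum.ext
  have ha := enum_eq_smul553 s g hg w hrel a
  have hb' := enum_eq_smul553 s g hg w hrel b
  have hc := enum_eq_smul553 s g hg w hrel (b - a)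
  have h0 := enum_eq_smul553 s g hg w hrel 0
  rw [h] at ha
  rw [hc]
  have e1 : (g ^ a)⁻¹ • (w 0).asIdeal = (g ^ b)⁻¹ • (w 0).asIdeal := by rw [← ha, ← hb']
  have e2 : g ^ b = g ^ (b - a) * g ^ a := by rw [← pow_add, Nat.sub_add_cancel hab]
  have e3 : (g ^ (b - a))⁻¹ • (w 0).asIdeal = g ^ a • ((g ^ b)⁻¹ • (w 0).asIdeal) := by
    rw [smul_smul, e2, mul_inv_rev, ← mul_assoc, mul_inv_cancel, one_mul]
  rw [e3, ← e1, smul_inv_smul]

/-- The places exhaust the fibre. -/
theorem enum_exh553 (s : T5.AdelicAut K') (g : Gal(K'/K)) (hg : ∀ x : K', g x = s.σ x)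
    (l : ℕ) (hl : l.Prime) (hG : IsGalois K K') (hdeg : Module.finrank K K' = l)
    (hg1 : g ≠ 1) (v : HeightOneSpectrum (𝓞 K)) (w : ℕ → HeightOneSpectrum (𝓞 K'))
    (hovr : PlaceOver K K' v (w 0))
    (hrel : ∀ j : ℕ, T5.PlaceRel s (w (j + 1)) (w j))
    (w' : HeightOneSpectrum (𝓞 K')) (hw' : PlaceOver K K' v w') :
    ∃ a : ℕ, a < l ∧ w' = w a := by
  haveI := hG
  haveI : v.asIdeal.IsPrime := v.isPrime
  haveI : v.asIdeal.IsMaximal := v.isMaximal
  haveI : (w 0).asIdeal.IsPrime := (w 0).isPrime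
  haveI : w'.asIdeal.IsPrime := w'.isPrime
  haveI : (w 0).asIdeal.LiesOver v.asIdeal := liesOver_of_placeOverSE553 hovr
  haveI : w'.asIdeal.LiesOver v.asIdeal := liesOver_of_placeOverSE553 hw'
  have hcard : Nat.card Gal(K'/K) = l := by
    rw [IsGalois.card_aut_eq_finrank, hdeg]
  haveI : Fact l.Prime := ⟨hl⟩
  obtain ⟨τ, hτ⟩ := Ideal.exists_smul_eq_of_isGaloisGroup v.asIdeal (w 0).asIdeal w'.asIdeal
    Gal(K'/K)
  obtain ⟨n, hn⟩ : τ⁻¹ ∈ Submonoid.powers g := mem_powers_of_prime_card hcard hg1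
  have hn' : g ^ n = τ⁻¹ := hn
  have hpl : g ^ l = 1 := by
    rw [← hcard]
    exact pow_card_eq_one'
  have hmod : g ^ (n % l) = g ^ n := by
    conv_rhs => rw [← Nat.div_add_mod n l, pow_add, pow_mul, hpl, one_pow, one_mul]
  refine ⟨n % l, Nat.mod_lt _ hl.pos, ?_⟩
  apply HeightOneSpectrum.ext
  rw [enum_eq_smul553 s g hg w hrel (n % l), hmod, hn', inv_inv, hτ]

/-- The relation closes up: `w_a = σ(w_{(a+1) mod l})`. -/
theorem enum_rel_mod553 (s : T5.AdelicAut K') (g : Gal(K'/K)) (hg : ∀ x : K', g x = s.σ x)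
    (l : ℕ) (hpl : g ^ l = 1) (w : ℕ → HeightOneSpectrum (𝓞 K'))
    (hrel : ∀ j : ℕ, T5.PlaceRel s (w (j + 1)) (w j)) (a : ℕ) :
    T5.PlaceRel s (w ((a + 1) % l)) (w a) := by
  show (w a).asIdeal = Ideal.map (RingOfIntegers.mapRingEquiv s.σ) (w ((a + 1) % l)).asIdeal
  rw [map_eq_smulSE553 _ g (mapRingEquiv_eq_smulSE553 s.σ g hg),
    enum_eq_smul553 s g hg w hrel a, enum_eq_smul553 s g hg w hrel ((a + 1) % l), smul_smul]
  have hmod : g ^ ((a + 1) % l) = g ^ (a + 1) := by
    conv_rhs => rw [← Nat.div_add_mod (a + 1) l, pow_add, pow_mul, hpl, one_pow, one_mul]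
  rw [hmod, pow_succ, mul_inv_rev, ← mul_assoc, mul_inv_cancel, one_mul]

end Gal

/-! ## 2. Continuity and density -/

section Cont

variable {K K' : Type} [Field K] [NumberField K] [Field K'] [NumberField K']

theorem exists_smallSE553 (v : HeightOneSpectrum (𝓞 K)) :
    ∃ p : v.adicCompletion K, p ≠ 0 ∧ ‖p‖ < 1 := by
  obtain ⟨π, hπ, hπ0⟩ : ∃ π : 𝓞 K, π ∈ v.asIdeal ∧ π ≠ 0 :=
    Submodule.exists_mem_ne_zero_of_ne_bot v.ne_bot
  refine ⟨algebraMap K (v.adicCompletion K) (algebraMap (𝓞 K) K π), ?_,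
    (NumberField.FinitePlace.norm_lt_one_iff_mem K v π).2 hπ⟩
  rw [Ne, map_eq_zero, map_eq_zero_iff _ (FaithfulSMul.algebraMap_injective (𝓞 K) K)]
  exact hπ0

/-- A ring homomorphism of completions which scales the valuation is continuous. -/
theorem continuous_of_valSE553 {v : HeightOneSpectrum (𝓞 K)} {w : HeightOneSpectrum (𝓞 K')}
    (f : v.adicCompletion K →+* w.adicCompletion K') (e : ℕ) (he : 0 < e)
    (hv : ∀ x : v.adicCompletion K, Valued.v (f x) = Valued.v x ^ e) : Continuous f := by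
  have h0 : ContinuousAt f 0 := by
    rw [ContinuousAt, map_zero, NormedAddGroup.tendsto_nhds_zero]
    intro ε hε
    obtain ⟨p, hp0, hp1⟩ := exists_smallSE553 v
    have hvp : Valued.v p < 1 := Valued.toNormedField.norm_lt_one_iff.1 hp1
    have hfp1 : ‖f p‖ < 1 := by
      apply Valued.toNormedField.norm_lt_one_iff.2
      rw [hv]
      exact pow_lt_one₀ zero_le hvp he.ne'
    obtain ⟨n, hn⟩ := exists_pow_lt_of_lt_one hε hfp1
    have hx0 : 0 < ‖p ^ n‖ := norm_pos_iff.2 (pow_ne_zero n hp0)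
    filter_upwards [Metric.ball_mem_nhds (0 : v.adicCompletion K) hx0] with x hx
    rw [mem_ball_zero_iff] at hx
    have h1 : Valued.v x < Valued.v (p ^ n) := Valued.toNormedField.norm_lt_iff.1 hx
    have h2 : Valued.v (f x) < Valued.v (f (p ^ n)) := by
      rw [hv, hv]
      exact pow_lt_pow_left₀ h1 zero_le he.ne'
    have h3 : ‖f x‖ < ‖f (p ^ n)‖ := Valued.toNormedField.norm_lt_iff.2 h2
    rw [map_pow, norm_pow] at h3
    exact h3.trans hn
  exact continuous_of_continuousAt_zero f h0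

/-- Two continuous maps on `K_v` which agree on `K` are equal. -/
theorem eq_of_eq_on_ratSE553 {F : Type*} [TopologicalSpace F] [T2Space F]
    (v : HeightOneSpectrum (𝓞 K)) (f₁ f₂ : v.adicCompletion K → F)
    (h₁ : Continuous f₁) (h₂ : Continuous f₂)
    (hK : ∀ y : K, f₁ (algebraMap K (v.adicCompletion K) y)
      = f₂ (algebraMap K (v.adicCompletion K) y)) (z : v.adicCompletion K) : f₁ z = f₂ z :=
  congrFun ((v.denseRange_algebraMap K).equalizer h₁ h₂ (funext hK)) z

end Cont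

/-! ## 3. The leaf -/

section Main

variable (K K' : Type) [Field K] [NumberField K] [Field K'] [NumberField K'] [Algebra K K']

/-- **LEAF UF.b1 `SplitEnumC314`** (conclusion VERBATIM), from the closed asset leaf
`H305.SigmaLocC305 K'`. -/
theorem splitEnumC_of553 (hσ : H305.SigmaLocC305 K') : H314.SplitEnumC314 K K' := by
  intro hT6 D hD hcyc hl2 htc ι hι v d hovr hrel hne hrat hval
  -- the Galois element
  have hfix : ∀ y : K, D.s.σ (algebraMap K K' y) = algebraMap K K' y := fun y =>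
    (hD.cyc.fixed _).1 ((hD.base _).2 ⟨y, rfl⟩)
  obtain ⟨g, hg⟩ : ∃ g : Gal(K'/K), ∀ x : K', g x = D.s.σ x :=
    ⟨AlgEquiv.ofRingEquiv (f := D.s.σ) hfix, fun _ => rfl⟩
  haveI := hcyc.galois
  have hcard : Nat.card Gal(K'/K) = D.l := by
    rw [IsGalois.card_aut_eq_finrank, hcyc.degree]
  have hpl : g ^ D.l = 1 := by
    rw [← hcard]
    exact pow_card_eq_one'
  have hg1 : g ≠ 1 := by
    intro h1
    obtain ⟨x, hx⟩ := hD.cyc.faithful 1 Nat.one_pos hcyc.prime.one_lt
    apply hx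
    rw [pow_one, ← hg x, h1]
    rfl
  -- continuity of the identifications
  have hic : ∀ j : ℕ, Continuous (d.i j) := fun j =>
    continuous_of_valSE553 (K := K) (K' := K') (v := v) (w := d.w j)
      (RingEquiv.toRingHom (d.i j)) 1 Nat.one_pos
      (fun x => (hval j x).trans (pow_one _).symm)
  refine ⟨hcyc.prime.pos, hovr, hrel, hne, hrat, hval, ?_, ?_, ?_, ?_⟩
  · -- inj
    intro a b ha hb hab
    rcases le_total a b with h | h
    · exact enum_inj553 D.s g hg D.l d.w hrel hne a b h hb hab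
    · exact (enum_inj553 D.s g hg D.l d.w hrel hne b a h ha hab.symm).symm
  · -- exh
    intro w' hw'
    exact enum_exh553 D.s g hg D.l hcyc.prime hcyc.galois hcyc.degree hg1 v d.w (hovr 0) hrel
      w' hw'
  · -- sig
    intro a x
    have hr : T5.PlaceRel D.s (d.w (cycSucc340 a).1) (d.w a.1) :=
      enum_rel_mod553 D.s g hg D.l hpl d.w hrel a.1
    obtain ⟨sw, hsw_rat, hsw_val, hsw_fin⟩ := (hσ D.s).1 _ _ hr
    rw [hsw_fin x]
    have hswc : Continuous sw :=
      continuous_of_valSE553 (K := K') (K' := K') (v := d.w (cycSucc340 a).1) (w := d.w a.1)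
        (RingEquiv.toRingHom sw) 1 Nat.one_pos
        (fun y => (hsw_val y).trans (pow_one _).symm)
    have key : ∀ z : v.adicCompletion K, sw (d.i (cycSucc340 a).1 z) = d.i a.1 z := by
      intro z
      refine eq_of_eq_on_ratSE553 v (fun z => sw (d.i (cycSucc340 a).1 z)) (fun z => d.i a.1 z)
        (hswc.comp (hic _)) (hic _) ?_ z
      intro y
      show sw (d.i (cycSucc340 a).1 (algebraMap K (v.adicCompletion K) y))
        = d.i a.1 (algebraMap K (v.adicCompletion K) y)
      rw [hrat, hrat, hsw_rat, hfix]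
    have e1 : T5.finHom (d.w (cycSucc340 a).1) x
        = d.i (cycSucc340 a).1 ((d.i (cycSucc340 a).1).symm
            (T5.finHom (d.w (cycSucc340 a).1) x)) := by
      rw [RingEquiv.apply_symm_apply]
    conv_lhs => rw [e1, key, RingEquiv.symm_apply_apply]
  · -- iot
    intro a x
    obtain ⟨e, i', he, hrat', hval', hfin⟩ := hι.fin v (d.w a) (hovr a)
    rw [hfin x]
    refine eq_of_eq_on_ratSE553 v (fun z => i' z) (fun z => d.i a z)
      (continuous_of_valSE553 i' e he hval') (hic a) ?_ _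
    intro y
    show i' (algebraMap K (v.adicCompletion K) y) = d.i a (algebraMap K (v.adicCompletion K) y)
    rw [hrat', hrat]

end Main

end Fermat.Agent.LT.T7.H553

end
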