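import Mathlib
import Fermat.Agent.LT.T7.H309.Dn2Spec
import Fermat.Agent.LT.T7.H281.TranslEig
import Fermat.Agent.LT.T7.H439.SupplyDown
import Fermat.Agent.LT.T7.H392.NatOp
import Fermat.Agent.LT.T7.H887.TorAvgFix
import Fermat.Agent.LT.T1.Closed

/-!
# Row LT, tower T7, leaf T7.L2.1.H2a.4.5.C `Dn2ClassC309` (helper553, registry row 3031)

OFF-MAIN.  `dn2ClassC553 K K' : H309.Dn2.Dn2ClassC309 K K'`, VERBATIM against
`LT/T7/H309/Dn2Spec.lean` (helper309, sha256 2e8b57c8), unconditional.  Complete proofs, nothing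
assumed.  ADDITIVE (new names only, all ending in `553`).

Proof.  `W = wsum970 s β F₁0`, `f₂ = c · W♮`.  For the invariant cusp function `ψ`:

* `R(f₂) ψ = c · R(W♮) ψ` (linearity of the integral);
* `R(W♮) ψ = R(W) (P_∞ ψ)` (`H392.natOpC392`, `W` continuous of compact support) and
  `P_∞ ψ = ψ` (`H887.torAvgFixC887`, `ψ` is invariant under the positive scalars at infinity);
* `R(W) ψ = ∑_{x ∈ s} β(x) (R(F₁0) ψ)(· x)` (`H439.Rconv_ltr439`, finite sums of integrable
  functions);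
* `Θ = R(F₁0) ψ` has the eigen-data `e` (`dn1_class`), and every `x ∈ s` is trivial at infinity
  and outside `T₀` = the prime divisors of `𝔫`, i.e. a good translation of helper281's kit
  `T7/H281/TranslEig`: the weighted sum of the right translates of `Θ` is an eigenfunction of
  the Hecke operators outside the level (conjugate coset systems) and of the sphere means
  (elements trivial at infinity commute with the spheres), with the same eigenvalues.
-/

set_option autoImplicit false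

open AutomorphicForm IsDedekindDomain NumberField MeasureTheory
open scoped ComplexConjugate

noncomputable section

namespace Fermat.Agent.LT.T7.H553

open Fermat.Agent.LT.H556 Fermat.Agent.LT.H556.A0 Fermat.Agent.LT.T7
open Fermat.Agent.LT.T7.H305 Fermat.Agent.LT.T7.H893 Fermat.Agent.LT.T7.B981
open Fermat.Agent.LT.T7.B970 Fermat.Agent.LT.H129
open Fermat.Agent.LT

attribute [local instance] Fermat.Agent.LT.T5.instMeasurableSpaceG

section Kit

variable {K : Type} [Field K] [NumberField K]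

/-- The weighted translation operator `ψ ↦ ∑_{x ∈ s} β(x) ψ(· x)`. -/
def wtrDC553 (s : Finset (G K)) (β : G K → ℂ) (ψ : G K → ℂ) : G K → ℂ :=
  fun g => ∑ x ∈ s, β x * ψ (g * x)

/-- The Hecke operators at the places prime to the level commute with the weighted sums of good
translations. -/
theorem hecke_wtrDC553 {𝔫₀ : Ideal (𝓞 K)} {s : Finset (G K)} (β : G K → ℂ)
    (hs : ∀ t ∈ s, H281.IsGoodTransl281 𝔫₀ t) {ψ : G K → ℂ} {v : HeightOneSpectrum (𝓞 K)}
    (hv : ¬ v.asIdeal ∣ 𝔫₀) {a b : ℂ} (hψ : IsHeckeEigenAt ψ v a b) :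
    IsHeckeEigenAt (wtrDC553 s β ψ) v a b := by
  classical
  refine ⟨?_, ?_⟩
  · intro H hH g
    show ∑ h ∈ H, ∑ t ∈ s, β t * ψ (g * h * t)
      = ((Real.sqrt (Ideal.absNorm v.asIdeal : ℝ) : ℝ) : ℂ) * a * ∑ t ∈ s, β t * ψ (g * t)
    have e : ∀ t ∈ s, ∑ h ∈ H, β t * ψ (g * h * t)
        = ((Real.sqrt (Ideal.absNorm v.asIdeal : ℝ) : ℝ) : ℂ) * a * (β t * ψ (g * t)) := by
      intro t ht
      have hT : ∀ t' ∈ ({t} : Finset (G K)), H281.IsGoodTransl281 𝔫₀ t' := by
        intro t' ht'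
        rw [Finset.mem_singleton] at ht'
        rw [ht']
        exact hs t ht
      have h1 : ∑ h ∈ H, β t * ∑ t' ∈ ({t} : Finset (G K)), ψ (g * h * t')
          = ((Real.sqrt (Ideal.absNorm v.asIdeal : ℝ) : ℝ) : ℂ) * a
            * (β t * ∑ t' ∈ ({t} : Finset (G K)), ψ (g * t')) :=
        (H281.hecke_translOp281 (β t) hT hv hψ).1 H hH g
      simp only [Finset.sum_singleton] at h1
      exact h1
    rw [Finset.sum_comm, Finset.sum_congr rfl e, ← Finset.mul_sum]
  · intro z hz g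
    show ∑ t ∈ s, β t * ψ (g * z * t) = b * ∑ t ∈ s, β t * ψ (g * t)
    have e : ∀ t ∈ s, β t * ψ (g * z * t) = b * (β t * ψ (g * t)) := by
      intro t _
      rw [mul_assoc g, H281.commute_scalar_all281 hz t, ← mul_assoc, hψ.2 z hz (g * t)]
      ring
    rw [Finset.sum_congr rfl e, ← Finset.mul_sum]

/-- The sphere means commute with the weighted sums of translations which are trivial at
infinity. -/
theorem mean_wtrDC553 {s : Finset (G K)} (β : G K → ℂ)
    (hs : ∀ t ∈ s, ∀ w : InfinitePlace K, TrivAtInf w t) {ψ : G K → ℂ} (hc : Continuous ψ)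
    {w : InfinitePlace K} {m : ℝ → ℂ} (hψ : MeanEig ψ w m) :
    MeanEig (wtrDC553 s β ψ) w m := by
  intro d hd Y hY g
  have hYc := H281.continuous_sphere281 hY
  -- the integrands
  obtain ⟨F, hF⟩ : ∃ F : G K → ℝ → ℝ → ℂ,
      F = fun t α θ => ψ (g * t * Y α θ) * ((Real.sin θ : ℝ) : ℂ) := ⟨_, rfl⟩
  have hFc : ∀ t : G K, Continuous (Function.uncurry (F t)) := by
    intro t
    rw [hF]
    have h1 : Continuous fun p : ℝ × ℝ => ψ (g * t * Y p.1 p.2) :=
      hc.comp (continuous_const.mul hYc)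
    have h2 : Continuous fun p : ℝ × ℝ => ((Real.sin p.2 : ℝ) : ℂ) := by fun_prop
    exact h1.mul h2
  have hFi : ∀ (t : G K) (α : ℝ), Continuous fun θ : ℝ => F t α θ := fun t α =>
    (hFc t).comp (Continuous.prodMk_right α)
  have hGc : ∀ t : G K, Continuous fun α : ℝ => ∫ θ in (0 : ℝ)..Real.pi, F t α θ := fun t =>
    intervalIntegral.continuous_parametric_intervalIntegral_of_continuous' (hFc t) 0 Real.pi
  -- the eigen-equation for each translate
  have hev : ∀ t : G K,
      (∫ α in (0 : ℝ)..(2 * Real.pi), ∫ θ in (0 : ℝ)..Real.pi, F t α θ) = m d * ψ (g * t) := by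
    intro t
    rw [hF]
    exact hψ d hd Y hY (g * t)
  -- the pointwise identity
  have hpt : ∀ α θ : ℝ, wtrDC553 s β ψ (g * Y α θ) * ((Real.sin θ : ℝ) : ℂ)
      = ∑ t ∈ s, β t * F t α θ := by
    intro α θ
    show (∑ t ∈ s, β t * ψ (g * Y α θ * t)) * ((Real.sin θ : ℝ) : ℂ) = ∑ t ∈ s, β t * F t α θ
    rw [Finset.sum_mul]
    refine Finset.sum_congr rfl fun t ht => ?_
    rw [hF]
    simp only
    rw [mul_assoc g, H281.commute_fin_inf281 (hs t ht) (hY α θ).1.2, ← mul_assoc,
      mul_assoc (β t)]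
  have hin : ∀ α : ℝ,
      (∫ θ in (0 : ℝ)..Real.pi, wtrDC553 s β ψ (g * Y α θ) * ((Real.sin θ : ℝ) : ℂ))
        = ∑ t ∈ s, β t * ∫ θ in (0 : ℝ)..Real.pi, F t α θ := by
    intro α
    have e : (fun θ : ℝ => wtrDC553 s β ψ (g * Y α θ) * ((Real.sin θ : ℝ) : ℂ))
        = fun θ : ℝ => ∑ t ∈ s, β t * F t α θ := funext fun θ => hpt α θ
    have hint : ∀ t ∈ s, IntervalIntegrable (fun θ : ℝ => β t * F t α θ) volume 0 Real.pi :=
      fun t _ => (Continuous.mul continuous_const (hFi t α)).intervalIntegrable _ _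
    rw [e, intervalIntegral.integral_finsetSum hint]
    refine Finset.sum_congr rfl fun t _ => ?_
    rw [intervalIntegral.integral_const_mul]
  have e2 : (fun α : ℝ =>
      ∫ θ in (0 : ℝ)..Real.pi, wtrDC553 s β ψ (g * Y α θ) * ((Real.sin θ : ℝ) : ℂ))
        = fun α : ℝ => ∑ t ∈ s, β t * ∫ θ in (0 : ℝ)..Real.pi, F t α θ := funext hin
  have hint2 : ∀ t ∈ s, IntervalIntegrable
      (fun α : ℝ => β t * ∫ θ in (0 : ℝ)..Real.pi, F t α θ) volume 0 (2 * Real.pi) :=
    fun t _ => (Continuous.mul continuous_const (hGc t)).intervalIntegrable _ _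
  rw [e2, intervalIntegral.integral_finsetSum hint2]
  have e3 : ∀ t ∈ s, (∫ α in (0 : ℝ)..(2 * Real.pi), β t * ∫ θ in (0 : ℝ)..Real.pi, F t α θ)
      = m d * (β t * ψ (g * t)) := by
    intro t _
    rw [intervalIntegral.integral_const_mul, hev t]
    ring
  rw [Finset.sum_congr rfl e3]
  show ∑ t ∈ s, m d * (β t * ψ (g * t)) = m d * ∑ t ∈ s, β t * ψ (g * t)
  rw [Finset.mul_sum]

/-- An element which is trivial at infinity and outside the prime divisors of the level is a good
translation. -/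
theorem good_of_trivDC553 {𝔫 : Ideal (𝓞 K)} {T₀ : Finset (HeightOneSpectrum (𝓞 K))}
    (hmem : ∀ v : HeightOneSpectrum (𝓞 K), v ∈ T₀ ↔ v.asIdeal ∣ 𝔫) {x : G K}
    (hx : (∀ w : InfinitePlace K, TrivAtInf w x) ∧
      ∀ v : HeightOneSpectrum (𝓞 K), v ∉ T₀ → TrivAtFin v x) :
    H281.IsGoodTransl281 𝔫 x := by
  refine ⟨hx.1, fun v hv => ?_⟩
  have hv' : v ∉ T₀ := fun h => hv ((hmem v).1 h)
  have h1 : finCompHom129 v x = 1 := (trivAtFin_iff129 v x).1 (hx.2 v hv')
  constructor
  · rw [← isInt129_finCompHom_iff, h1]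
    exact isInt129_one _
  · rw [← isInt129_finCompHom_iff, map_inv, h1, inv_one]
    exact isInt129_one _

/-- The weighted sum of the left translates of a continuous function is continuous. -/
theorem continuous_wsumDC553 (s : Finset (G K)) (β : G K → ℂ) {φ : G K → ℂ}
    (h : Continuous φ) : Continuous (wsum970 s β φ) := by
  show Continuous fun y => ∑ x ∈ s, β x * φ (x⁻¹ * y)
  exact continuous_finsetSum _ fun b _ =>
    continuous_const.mul (h.comp (continuous_const.mul continuous_id))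

/-- The weighted sum of the left translates of a function of compact support has compact
support. -/
theorem hasCompactSupport_wsumDC553 (s : Finset (G K)) (β : G K → ℂ) {φ : G K → ℂ}
    (h : HasCompactSupport φ) : HasCompactSupport (wsum970 s β φ) := by
  classical
  have e : wsum970 s β φ = fun y => ∑ b ∈ s, β b * ltr b φ y := rfl
  rw [e]
  clear e
  induction s using Finset.induction_on with
  | empty =>
    simp only [Finset.sum_empty]
    exact HasCompactSupport.zero
  | insert a s ha ih =>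
    have e' : (fun y => ∑ b ∈ insert a s, β b * ltr b φ y)
        = ((fun _ => β a) * ltr a φ) + fun y => ∑ b ∈ s, β b * ltr b φ y := by
      funext y
      simp [Finset.sum_insert ha]
    rw [e']
    exact ((H439.hasCompactSupport_ltr439 a h).mul_left).add ih

variable {μ : Measure (G K)} {F : Set (G K)}

/-- `R(wsum s β φ) ψ = ∑_{x ∈ s} β(x) (R(φ) ψ)(· x)`. -/
theorem Rconv_wsumDC553 (hF : T5.IsFrame μ F) (s : Finset (G K)) (β : G K → ℂ)
    {φ ψ : G K → ℂ} (hφ : Continuous φ) (hφs : HasCompactSupport φ) (hψ : Continuous ψ)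
    (x : G K) :
    T5.Rconv μ (wsum970 s β φ) ψ x = wtrDC553 s β (T5.Rconv μ φ ψ) x := by
  have h1 : T5.Rconv μ (wsum970 s β φ) ψ x = ∑ b ∈ s, β b * T5.Rconv μ (ltr b φ) ψ x := by
    show ∫ y, (∑ b ∈ s, β b * φ (b⁻¹ * y)) * ψ (x * y) ∂μ
      = ∑ b ∈ s, β b * ∫ y, φ (b⁻¹ * y) * ψ (x * y) ∂μ
    have e : ∀ b ∈ s, β b * ∫ y, φ (b⁻¹ * y) * ψ (x * y) ∂μ
        = ∫ y, β b * φ (b⁻¹ * y) * ψ (x * y) ∂μ := by
      intro b _
      rw [← integral_const_mul]
      congr 1
      funext y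
      ring
    rw [Finset.sum_congr rfl e, ← integral_finsetSum]
    · congr 1
      funext y
      rw [Finset.sum_mul]
    · intro b _
      have hi := (H439.integrable_mul439 hF (H439.continuous_ltr439 b hφ)
        (H439.hasCompactSupport_ltr439 b hφs) hψ x).const_mul (β b)
      refine hi.congr (Filter.Eventually.of_forall fun y => ?_)
      show β b * (φ (b⁻¹ * y) * ψ (x * y)) = β b * φ (b⁻¹ * y) * ψ (x * y)
      ring
  rw [h1]
  show ∑ b ∈ s, β b * T5.Rconv μ (ltr b φ) ψ x = ∑ b ∈ s, β b * T5.Rconv μ φ ψ (x * b)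
  exact Finset.sum_congr rfl fun b _ => by rw [H439.Rconv_ltr439 hF b φ ψ x]

end Kit

section Main

variable (K K' : Type) [Field K] [NumberField K] [Field K'] [NumberField K'] [Algebra K K']

/-- **LEAF T7.L2.1.H2a.4.5.C `Dn2ClassC309`** (VERBATIM). -/
theorem dn2ClassC553 : H309.Dn2.Dn2ClassC309 K K' := by
  intro ℓ Φ B 𝔫 μc T₀ n n₀ m a D a' D' s β b c₁ Φ₁ F₁ hyp c ψ e hψ
  have hfr : T5.IsFrame B.R.μ B.R.F := hyp.base.frame.frame
  have hFt : T5.IsTestFn 𝔫 T5.trivType (F₁ []) :=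
    hyp.pair.dn1_test [] (fun x hx => absurd hx (List.not_mem_nil))
  have hψc : Continuous ψ := hψ.inv.cusp.cont
  have hWc : Continuous (wsum970 s β (F₁ [])) := continuous_wsumDC553 s β hFt.cont
  have hWs : HasCompactSupport (wsum970 s β (F₁ [])) :=
    hasCompactSupport_wsumDC553 s β hFt.supp
  have hΘ := hyp.pair.dn1_class ψ e hψ
  have key : T5.Rconv B.R.μ (fun h => c * H193.nat193 a D (wsum970 s β (F₁ [])) h) ψ
      = wtrDC553 s (fun x => c * β x) (T5.Rconv B.R.μ (F₁ []) ψ) := by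
    funext g
    have h1 : T5.Rconv B.R.μ (fun h => c * H193.nat193 a D (wsum970 s β (F₁ [])) h) ψ g
        = c * T5.Rconv B.R.μ (H193.nat193 a D (wsum970 s β (F₁ []))) ψ g := by
      show ∫ y, c * H193.nat193 a D (wsum970 s β (F₁ [])) y * ψ (g * y) ∂B.R.μ
        = c * ∫ y, H193.nat193 a D (wsum970 s β (F₁ [])) y * ψ (g * y) ∂B.R.μ
      rw [← integral_const_mul]
      congr 1
      funext y
      ring
    have h2 := H392.natOpC392 K (T1.t1Out K) B.R hyp.base.frame 𝔫 B.R.r a D hyp.rel.down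
      (wsum970 s β (F₁ [])) hWc hWs ψ hψc g
    have h3 : H193.torAvg a D ψ = ψ := funext fun g' =>
      H887.torAvgFixC887 K 𝔫 B.R.r a D hyp.rel.down ψ hψ.inv.arch_scalar g'
    rw [h1, h2, h3, Rconv_wsumDC553 hfr s β hFt.cont hFt.supp hψc g]
    show c * ∑ x ∈ s, β x * T5.Rconv B.R.μ (F₁ []) ψ (g * x)
      = ∑ x ∈ s, c * β x * T5.Rconv B.R.μ (F₁ []) ψ (g * x)
    rw [Finset.mul_sum]
    exact Finset.sum_congr rfl fun x _ => by ring
  rw [key]
  have hgood : ∀ t ∈ s, H281.IsGoodTransl281 𝔫 t := fun t ht =>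
    good_of_trivDC553 hyp.exp.mem (hyp.wt.supp t ht)
  exact ⟨fun v hv => hecke_wtrDC553 _ hgood hv (hΘ.hecke v hv),
    fun w => mean_wtrDC553 _ (fun t ht => (hgood t ht).1) hΘ.inv.cusp.cont (hΘ.mean w)⟩

end Main

end Fermat.Agent.LT.T7.H553

end
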